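/-
Program V (S27), Lefschetz route, leaf (DICT), abstract half (helper6): basic layer.

Setting: `F / K` with the Riemann–Roch package `R : V27RR K F g` (helper9), a place `P0`
("the point at infinity"), all places of degree one (`K` algebraically closed).
* `v27dcL P0 m = L(m P0)`: the functions regular off `P0` with pole order `≤ m` at `P0`;
* `v27dcSum T`: the divisor `Σ_i T_i` of a tuple of places;
* `v27dc_exists_avoid`: AVOIDANCE - over an infinite field there is `f ∈ L(D)` with
  `ord_P f = -D(P)` for all `P` in a finite set (when `deg D ≥ 2g - 1 + deg P`);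
* `v27dc_eq_of_le_of_degree_eq`: divisors `D ≤ D'` of the same degree are equal.
-/
import Fermat.Agent.V.RR.Pack

set_option autoImplicit false

noncomputable section

namespace Fermat.Agent.V.Dict

open AlgebraicCurve Module Fermat.Agent.V.Dual Fermat.Agent.V.RR

variable {K F : Type*} [Field K] [Field F] [Algebra K F]

/-! ### `L(m P0)` -/

/-- `L(m P0)`: regular off `P0`, pole order `≤ m` at `P0`. -/
abbrev v27dcL (P0 : Place K F) (m : ℕ) : Submodule K F :=
  riemannRochSpace (Finsupp.single P0 (m : ℤ))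

theorem v27dc_mem_L_iff {P0 : Place K F} {m : ℕ} {f : F} :
    f ∈ v27dcL P0 m ↔ f = 0 ∨ (-(m : ℤ) ≤ P0.ord f ∧ ∀ v : Place K F, v ≠ P0 → 0 ≤ v.ord f) := by
  rw [mem_riemannRochSpace_iff]
  constructor
  · intro h
    by_cases hf : f = 0
    · exact Or.inl hf
    · refine Or.inr ⟨?_, fun v hv => ?_⟩
      · have := (h P0).resolve_left hf
        rwa [Finsupp.single_eq_same] at this
      · have := (h v).resolve_left hf
        rwa [Finsupp.single_eq_of_ne hv, neg_zero] at this
  · rintro (rfl | ⟨h1, h2⟩) v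
    · exact Or.inl rfl
    · right
      by_cases hv : v = P0
      · subst hv; rwa [Finsupp.single_eq_same]
      · rw [Finsupp.single_eq_of_ne hv, neg_zero]; exact h2 v hv

theorem v27dcL_mono (P0 : Place K F) {m m' : ℕ} (h : m ≤ m') : v27dcL P0 m ≤ v27dcL P0 m' :=
  v27rr_rrSpace_mono (Finsupp.single_mono (by exact_mod_cast h))

/-! ### sums of places -/

/-- the divisor `Σ_i T_i`. -/
def v27dcSum {m : ℕ} (T : Fin m → Place K F) : Divisor K F := ∑ i, Finsupp.single (T i) 1

open Classical in
theorem v27dcSum_apply {m : ℕ} (T : Fin m → Place K F) (v : Place K F) :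
    v27dcSum T v = ((Finset.univ.filter fun i => T i = v).card : ℤ) := by
  rw [v27dcSum, Finsupp.finsetSum_apply]
  simp only [Finsupp.single_apply]
  rw [Finset.sum_ite, Finset.sum_const_zero, add_zero, Finset.sum_const, nsmul_eq_mul, mul_one]

theorem v27dcSum_nonneg {m : ℕ} (T : Fin m → Place K F) (v : Place K F) : 0 ≤ v27dcSum T v := by
  rw [v27dcSum_apply]; exact Int.natCast_nonneg _

theorem v27dcSum_pos_iff {m : ℕ} (T : Fin m → Place K F) (v : Place K F) :
    0 < v27dcSum T v ↔ ∃ i, T i = v := by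
  classical
  rw [v27dcSum_apply, Int.natCast_pos, Finset.card_pos]
  constructor
  · rintro ⟨i, hi⟩; exact ⟨i, (Finset.mem_filter.mp hi).2⟩
  · rintro ⟨i, hi⟩; exact ⟨i, Finset.mem_filter.mpr ⟨Finset.mem_univ i, hi⟩⟩

theorem v27dcSum_eq_zero_of_forall_ne {m : ℕ} (T : Fin m → Place K F) (v : Place K F)
    (h : ∀ i, T i ≠ v) : v27dcSum T v = 0 := by
  have h1 := v27dcSum_nonneg T v
  have h2 : ¬ 0 < v27dcSum T v := fun hpos => by
    obtain ⟨i, hi⟩ := (v27dcSum_pos_iff T v).mp hpos
    exact h i hi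
  omega

theorem v27dc_degree_sum (hdeg : ∀ v : Place K F, v.deg = 1) {m : ℕ} (T : Fin m → Place K F) :
    Divisor.degree (v27dcSum T) = m := by
  rw [v27dcSum, map_sum]
  simp [Divisor.degree_single, hdeg]

/-! ### comparing divisors -/

/-- divisors `D ≤ D'` of the same degree are equal (all places have positive degree). -/
theorem v27dc_eq_of_le_of_degree_eq (hpos : ∀ v : Place K F, 0 < v.deg) {D D' : Divisor K F}
    (hle : D ≤ D') (hdeg : Divisor.degree D = Divisor.degree D') : D = D' := by
  classical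
  have hE : ∀ v, 0 ≤ (D' - D) v := fun v => by
    rw [Finsupp.sub_apply]; have := Finsupp.le_def.mp hle v; omega
  have hdegE : Divisor.degree (D' - D) = 0 := by rw [map_sub, hdeg, sub_self]
  have hsum : Divisor.degree (D' - D) = ∑ v ∈ (D' - D).support, (D' - D) v * (v.deg : ℤ) := by
    rw [Divisor.degree, Finsupp.liftAddHom_apply]
    rfl
  have hzero : ∀ v ∈ (D' - D).support, (D' - D) v * (v.deg : ℤ) = 0 := by
    rw [hsum] at hdegE
    exact (Finset.sum_eq_zero_iff_of_nonneg fun v _ =>
      mul_nonneg (hE v) (Int.natCast_nonneg _)).mp hdegE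
  have hall : ∀ v, (D' - D) v = 0 := fun v => by
    by_contra hne
    have hv : v ∈ (D' - D).support := Finsupp.mem_support_iff.mpr hne
    have := hzero v hv
    rcases mul_eq_zero.mp this with h | h
    · exact hne h
    · have := hpos v; omega
  ext v
  have := hall v
  rw [Finsupp.sub_apply] at this
  omega

/-! ### orders of products -/

theorem v27dc_prod_ne_zero {ι : Type*} (s : Finset ι) (u : ι → F) (hu : ∀ i ∈ s, u i ≠ 0) :
    ∏ i ∈ s, u i ≠ 0 := Finset.prod_ne_zero_iff.mpr hu

theorem v27dc_ord_prod {ι : Type*} (v : Place K F) (s : Finset ι) (u : ι → F)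
    (hu : ∀ i ∈ s, u i ≠ 0) : v.ord (∏ i ∈ s, u i) = ∑ i ∈ s, v.ord (u i) := by
  classical
  induction s using Finset.induction_on with
  | empty => simp
  | insert a s ha ih =>
    rw [Finset.prod_insert ha, Finset.sum_insert ha,
      v.ord_mul (hu a (Finset.mem_insert_self a s))
        (v27dc_prod_ne_zero s u fun i hi => hu i (Finset.mem_insert_of_mem hi)),
      ih fun i hi => hu i (Finset.mem_insert_of_mem hi)]

/-! ### avoidance -/

/-- `f ∈ L(D) ∖ L(D - P)` has `ord_P f = -D(P)` exactly. -/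
theorem v27dc_ord_eq_of_not_mem {D : Divisor K F} {P : Place K F} {f : F}
    (hf : f ∈ riemannRochSpace D) (hf' : f ∉ riemannRochSpace (D - Finsupp.single P 1)) :
    f ≠ 0 ∧ P.ord f = -D P := by
  have hf0 : f ≠ 0 := by
    rintro rfl; exact hf' (Submodule.zero_mem _)
  refine ⟨hf0, ?_⟩
  rw [mem_riemannRochSpace_iff] at hf hf'
  have hP1 := (hf P).resolve_left hf0
  by_contra hne'
  apply hf'
  intro v
  right
  by_cases hv : v = P
  · subst hv
    rw [Finsupp.sub_apply, Finsupp.single_eq_same]
    omega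
  · rw [Finsupp.sub_apply, Finsupp.single_eq_of_ne hv, sub_zero]
    exact (hf v).resolve_left hf0

/-- AVOIDANCE: over an infinite constant field there is `f ∈ L(D)` with `ord_P f = -D(P)`
simultaneously for all `P` in a finite nonempty set, if `deg D ≥ 2g - 1 + deg P`. -/
theorem v27dc_exists_avoid [Infinite K] {g : ℕ} (R : V27RR K F g) (D : Divisor K F)
    (S : Finset (Place K F)) (hne : S.Nonempty)
    (hS : ∀ P ∈ S, 2 * (g : ℤ) - 2 + P.deg < Divisor.degree D) :
    ∃ f : F, f ≠ 0 ∧ f ∈ riemannRochSpace D ∧ ∀ P ∈ S, P.ord f = -D P := by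
  classical
  let V : Submodule K F := riemannRochSpace D
  let W : Place K F → Subspace K V := fun P =>
    Submodule.comap V.subtype (riemannRochSpace (D - Finsupp.single P 1))
  have hW : (⊤ : Subspace K V) ∉ S.image W := by
    intro htop
    obtain ⟨P, hP, hPtop⟩ := Finset.mem_image.mp htop
    obtain ⟨f, hf0, hf, hord⟩ := R.exists_ord_eq (D := D) P (hS P hP)
    have hmem : (⟨f, hf⟩ : V) ∈ W P := by rw [hPtop]; trivial
    have hmem' : f ∈ riemannRochSpace (D - Finsupp.single P 1) := hmem
    rw [mem_riemannRochSpace_iff] at hmem'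
    have := (hmem' P).resolve_left hf0
    rw [Finsupp.sub_apply, Finsupp.single_eq_same, hord] at this
    omega
  have hcov := Subspace.biUnion_ne_univ_of_top_notMem hW
  obtain ⟨x, hx⟩ : ∃ x : V, x ∉ ⋃ p ∈ S.image W, (p : Set V) := by
    by_contra hcon
    exact hcov (Set.eq_univ_of_forall fun y => by
      by_contra hy
      exact hcon ⟨y, hy⟩)
  have hxW : ∀ P ∈ S, (x : F) ∉ riemannRochSpace (D - Finsupp.single P 1) := by
    intro P hP hmem
    apply hx
    simp only [Set.mem_iUnion]
    exact ⟨W P, Finset.mem_image_of_mem W hP, hmem⟩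
  obtain ⟨P1, hP1⟩ := hne
  refine ⟨x, (v27dc_ord_eq_of_not_mem x.2 (hxW P1 hP1)).1, x.2, fun P hP => ?_⟩
  exact (v27dc_ord_eq_of_not_mem x.2 (hxW P hP)).2

end Fermat.Agent.V.Dict
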