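/-
Program V (S27), Lefschetz route, leaf (DICT), abstract half (helper6): (D1) `DivAff ⟺ div`.

For a tuple `T` of `m` places `≠ P0` and `f ∈ L(m P0)` of exact pole order `m`:
`div f = Σ T - m P0` (`v27dcIsDiv`) iff there are `u_i, s, h` regular off `P0`, of BOUNDED pole
order, with `u_i(T_i) = 0`, `s(T_i) ≠ 0`, `s f = h Π u_i` (`v27dcDivAff`).
-/
import Fermat.Agent.V.Dict.Basic

set_option autoImplicit false

noncomputable section

namespace Fermat.Agent.V.Dict

open AlgebraicCurve Module Fermat.Agent.V.Dual Fermat.Agent.V.RR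

variable {K F : Type*} [Field K] [Field F] [Algebra K F]

/-- "`u` is regular at `Q` and vanishes there" (for `u` regular at `Q`). -/
def v27dcVan (Q : Place K F) (u : F) : Prop := u = 0 ∨ 0 < Q.ord u

/-- "`s` is regular at `Q` and does not vanish there" (for `s` regular at `Q`). -/
def v27dcNonvan (Q : Place K F) (s : F) : Prop := s ≠ 0 ∧ Q.ord s = 0

/-- `div f = Σ T - m P0`. -/
def v27dcIsDiv (P0 : Place K F) {m : ℕ} (T : Fin m → Place K F) (f : F) : Prop :=
  f ≠ 0 ∧ P0.ord f = -(m : ℤ) ∧ ∀ v : Place K F, v ≠ P0 → v.ord f = v27dcSum T v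

/-- the FIRST-ORDER certificate of `div f = Σ T - m P0` (pole-order bounds `b1, b2, b3`). -/
def v27dcDivAff (P0 : Place K F) (b1 b2 b3 : ℕ) {m : ℕ} (T : Fin m → Place K F) (f : F) : Prop :=
  ∃ (u : Fin m → F) (s h : F), (∀ i, u i ∈ v27dcL P0 b1) ∧ s ∈ v27dcL P0 b2 ∧ h ∈ v27dcL P0 b3 ∧
    (∀ i, v27dcVan (T i) (u i)) ∧ (∀ i, v27dcNonvan (T i) s) ∧ s * f = h * ∏ i, u i

theorem v27dc_degree_nonneg {D : Divisor K F} (hD : ∀ v, 0 ≤ D v) : 0 ≤ Divisor.degree D := by
  have hsum : Divisor.degree D = ∑ v ∈ D.support, D v * (v.deg : ℤ) := by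
    rw [Divisor.degree, Finsupp.liftAddHom_apply]
    rfl
  rw [hsum]
  exact Finset.sum_nonneg fun v _ => mul_nonneg (hD v) (Int.natCast_nonneg _)

/-- (D1), easy direction: the certificate implies `div f = Σ T - m P0`. -/
theorem v27dc_isDiv_of_divAff {g : ℕ} (R : V27RR K F g) (hdeg : ∀ v : Place K F, v.deg = 1)
    {P0 : Place K F} {m : ℕ} {T : Fin m → Place K F} (hT : ∀ i, T i ≠ P0) {f : F} (hf0 : f ≠ 0)
    (hfL : f ∈ v27dcL P0 m) (hord : P0.ord f = -(m : ℤ)) {b1 b2 b3 : ℕ}
    (h : v27dcDivAff P0 b1 b2 b3 T f) : v27dcIsDiv P0 T f := by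
  classical
  have := R.hasDiv
  obtain ⟨u, s, hh, hu, hs, hhL, hvan, hnon, heq⟩ := h
  have hfreg : ∀ v : Place K F, v ≠ P0 → 0 ≤ v.ord f := fun v hv =>
    ((v27dc_mem_L_iff.mp hfL).resolve_left hf0).2 v hv
  -- the candidate divisor
  let D1 : Divisor K F := v27dcSum T - Finsupp.single P0 (m : ℤ)
  have hD1P0 : D1 P0 = -(m : ℤ) := by
    show (v27dcSum T - Finsupp.single P0 (m : ℤ)) P0 = _
    rw [Finsupp.sub_apply, Finsupp.single_eq_same, v27dcSum_eq_zero_of_forall_ne T P0 hT]
    ring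
  have hD1v : ∀ v, v ≠ P0 → D1 v = v27dcSum T v := fun v hv => by
    show (v27dcSum T - Finsupp.single P0 (m : ℤ)) v = _
    rw [Finsupp.sub_apply, Finsupp.single_eq_of_ne hv, sub_zero]
  have hle : D1 ≤ v27d_div K f := by
    rw [Finsupp.le_def]
    intro v
    rw [v27d_div_apply' f v]
    by_cases hv : v = P0
    · subst hv; rw [hD1P0, hord]
    · rw [hD1v v hv]
      by_cases hpos : 0 < v27dcSum T v
      · obtain ⟨i0, hi0⟩ := (v27dcSum_pos_iff T v).mp hpos
        have hs0 : s ≠ 0 := (hnon i0).1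
        have hsv : v.ord s = 0 := by rw [← hi0]; exact (hnon i0).2
        have hprod0 : hh * ∏ i, u i ≠ 0 := by rw [← heq]; exact mul_ne_zero hs0 hf0
        have hh0 : hh ≠ 0 := left_ne_zero_of_mul hprod0
        have hU0 : ∏ i, u i ≠ 0 := right_ne_zero_of_mul hprod0
        have hu0 : ∀ i, u i ≠ 0 := fun i => (Finset.prod_ne_zero_iff.mp hU0) i (Finset.mem_univ i)
        have hhreg : 0 ≤ v.ord hh := ((v27dc_mem_L_iff.mp hhL).resolve_left hh0).2 v hv
        have hureg : ∀ i, 0 ≤ v.ord (u i) := fun i =>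
          ((v27dc_mem_L_iff.mp (hu i)).resolve_left (hu0 i)).2 v hv
        have h1 : v.ord f = v.ord hh + ∑ i, v.ord (u i) := by
          have := congrArg v.ord heq
          rw [v.ord_mul hs0 hf0, v.ord_mul hh0 hU0, hsv, zero_add,
            v27dc_ord_prod v Finset.univ u fun i _ => hu0 i] at this
          exact this
        have h2 : (v27dcSum T v) ≤ ∑ i, v.ord (u i) := by
          rw [v27dcSum_apply]
          have : ((Finset.univ.filter fun i => T i = v).card : ℤ)
              = ∑ i ∈ Finset.univ.filter (fun i => T i = v), (1 : ℤ) := by simp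
          rw [this]
          calc ∑ i ∈ Finset.univ.filter (fun i => T i = v), (1 : ℤ)
              ≤ ∑ i ∈ Finset.univ.filter (fun i => T i = v), v.ord (u i) := by
                refine Finset.sum_le_sum fun i hi => ?_
                have hiv : T i = v := (Finset.mem_filter.mp hi).2
                have := (hvan i).resolve_left (hu0 i)
                rw [hiv] at this
                omega
            _ ≤ ∑ i, v.ord (u i) :=
                Finset.sum_le_sum_of_subset_of_nonneg (Finset.filter_subset _ _)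
                  fun i _ _ => hureg i
        omega
      · have h0 := v27dcSum_nonneg T v
        have := hfreg v hv
        omega
  have hdegD1 : Divisor.degree D1 = Divisor.degree (v27d_div K f) := by
    rw [v27d_degree_div]
    show Divisor.degree (v27dcSum T - Finsupp.single P0 (m : ℤ)) = 0
    rw [map_sub, v27dc_degree_sum hdeg, Divisor.degree_single, hdeg]
    simp
  have hEq := v27dc_eq_of_le_of_degree_eq (fun v => by rw [hdeg v]; exact one_pos) hle hdegD1
  refine ⟨hf0, hord, fun v hv => ?_⟩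
  rw [← v27d_div_apply' (K := K) f v, ← hEq, hD1v v hv]

/-- (D1), hard direction: `div f = Σ T - m P0` has a certificate with pole-order bounds
`2g + 1`, `2 g m + 2 g`, `2 g m + 2 g`. -/
theorem v27dc_divAff_of_isDiv [Infinite K] {g : ℕ} (R : V27RR K F g)
    (hdeg : ∀ v : Place K F, v.deg = 1)
    {P0 : Place K F} {m : ℕ} {T : Fin m → Place K F} (hT : ∀ i, T i ≠ P0) {f : F}
    (hdiv : v27dcIsDiv P0 T f) :
    v27dcDivAff P0 (2 * g + 1) (2 * g * m + 2 * g) (2 * g * m + 2 * g) T f := by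
  classical
  have := R.hasDiv
  obtain ⟨hf0, hord, hfv⟩ := hdiv
  -- the functions `u i`
  have hu : ∀ i : Fin m, ∃ u : F, u ≠ 0 ∧ u ∈ v27dcL P0 (2 * g + 1) ∧
      (∀ j, (T j).ord u = if T i = T j then 1 else 0) := by
    intro i
    let D : Divisor K F := Finsupp.single P0 ((2 * g + 1 : ℕ) : ℤ) - Finsupp.single (T i) 1
    have hdegD : Divisor.degree D = 2 * g := by
      show Divisor.degree (Finsupp.single P0 ((2 * g + 1 : ℕ) : ℤ) - Finsupp.single (T i) 1) = _
      rw [map_sub, Divisor.degree_single, Divisor.degree_single, hdeg, hdeg]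
      push_cast; ring
    obtain ⟨u, hu0, huL, huord⟩ := v27dc_exists_avoid R D (Finset.univ.image T)
      ⟨T i, Finset.mem_image_of_mem T (Finset.mem_univ i)⟩ (fun P _ => by
        rw [hdegD, hdeg]; push_cast; omega)
    refine ⟨u, hu0, ?_, fun j => ?_⟩
    · refine v27rr_rrSpace_mono ?_ huL
      show Finsupp.single P0 ((2 * g + 1 : ℕ) : ℤ) - Finsupp.single (T i) 1 ≤ _
      rw [sub_le_self_iff]
      exact Finsupp.single_nonneg.mpr zero_le_one
    · rw [huord (T j) (Finset.mem_image_of_mem T (Finset.mem_univ j))]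
      show -((Finsupp.single P0 ((2 * g + 1 : ℕ) : ℤ) - Finsupp.single (T i) 1 : Divisor K F)
        (T j)) = _
      rw [Finsupp.sub_apply, Finsupp.single_eq_of_ne (hT j), Finsupp.single_apply]
      split_ifs <;> simp
  choose u hu0 huL huord using hu
  have hureg : ∀ i (v : Place K F), v ≠ P0 → 0 ≤ v.ord (u i) := fun i v hv =>
    ((v27dc_mem_L_iff.mp (huL i)).resolve_left (hu0 i)).2 v hv
  have huP0 : ∀ i, -((2 * g + 1 : ℕ) : ℤ) ≤ P0.ord (u i) := fun i =>
    ((v27dc_mem_L_iff.mp (huL i)).resolve_left (hu0 i)).1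
  set U : F := ∏ i, u i with hU
  have hU0 : U ≠ 0 := Finset.prod_ne_zero_iff.mpr fun i _ => hu0 i
  have hUord : ∀ v : Place K F, v.ord U = ∑ i, v.ord (u i) := fun v =>
    v27dc_ord_prod v Finset.univ u fun i _ => hu0 i
  -- `ord_v U ≥ ΣT v` off `P0`, with equality at the `T j`
  have hUge : ∀ v : Place K F, v ≠ P0 → v27dcSum T v ≤ v.ord U := by
    intro v hv
    rw [hUord, v27dcSum_apply]
    have : ((Finset.univ.filter fun i => T i = v).card : ℤ)
        = ∑ i ∈ Finset.univ.filter (fun i => T i = v), (1 : ℤ) := by simp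
    rw [this]
    calc ∑ i ∈ Finset.univ.filter (fun i => T i = v), (1 : ℤ)
        ≤ ∑ i ∈ Finset.univ.filter (fun i => T i = v), v.ord (u i) := by
          refine Finset.sum_le_sum fun i hi => ?_
          have hiv : T i = v := (Finset.mem_filter.mp hi).2
          have := huord i i
          rw [if_pos rfl, hiv] at this
          omega
      _ ≤ ∑ i, v.ord (u i) :=
          Finset.sum_le_sum_of_subset_of_nonneg (Finset.filter_subset _ _)
            fun i _ _ => hureg i v hv
  have hUeq : ∀ j, (T j).ord U = v27dcSum T (T j) := by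
    intro j
    rw [hUord, v27dcSum_apply]
    have : ∀ i, (T j).ord (u i) = if T i = T j then 1 else 0 := fun i => huord i j
    simp only [this]
    rw [Finset.sum_ite, Finset.sum_const_zero, add_zero, Finset.sum_const, nsmul_eq_mul, mul_one]
  -- the divisor `Z` of the other zeros of `U`
  let Z : Divisor K F :=
    v27d_div K U - Finsupp.single P0 (P0.ord U) - v27dcSum T
  have hZP0 : Z P0 = 0 := by
    show (v27d_div K U - Finsupp.single P0 (P0.ord U) - v27dcSum T) P0 = 0
    rw [Finsupp.sub_apply, Finsupp.sub_apply, Finsupp.single_eq_same, v27d_div_apply' U P0,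
      v27dcSum_eq_zero_of_forall_ne T P0 hT]
    ring
  have hZv : ∀ v : Place K F, v ≠ P0 → Z v = v.ord U - v27dcSum T v := fun v hv => by
    show (v27d_div K U - Finsupp.single P0 (P0.ord U) - v27dcSum T) v = _
    rw [Finsupp.sub_apply, Finsupp.sub_apply, Finsupp.single_eq_of_ne hv, v27d_div_apply' U v]
    ring
  have hZnn : ∀ v, 0 ≤ Z v := fun v => by
    by_cases hv : v = P0
    · subst hv; rw [hZP0]
    · rw [hZv v hv]; have := hUge v hv; omega
  have hZT : ∀ j, Z (T j) = 0 := fun j => by rw [hZv (T j) (hT j), hUeq j]; ring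
  have hdegZ : Divisor.degree Z = -P0.ord U - m := by
    show Divisor.degree (v27d_div K U - Finsupp.single P0 (P0.ord U) - v27dcSum T) = _
    rw [map_sub, map_sub, v27d_degree_div, Divisor.degree_single, hdeg, v27dc_degree_sum hdeg]
    push_cast; ring
  have hdegZnn : 0 ≤ Divisor.degree Z := v27dc_degree_nonneg hZnn
  have hUP0 : -((m : ℤ) * ((2 * g + 1 : ℕ) : ℤ)) ≤ P0.ord U := by
    rw [hUord]
    calc -((m : ℤ) * ((2 * g + 1 : ℕ) : ℤ)) = ∑ _i : Fin m, -((2 * g + 1 : ℕ) : ℤ) := by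
          simp; ring
      _ ≤ ∑ i, P0.ord (u i) := Finset.sum_le_sum fun i _ => huP0 i
  -- the function `s`
  let b2 : ℕ := 2 * g * m + 2 * g
  let Ds : Divisor K F := Finsupp.single P0 (b2 : ℤ) - Z
  have hdegDs : (2 * g : ℤ) ≤ Divisor.degree Ds := by
    show (2 * g : ℤ) ≤ Divisor.degree (Finsupp.single P0 (b2 : ℤ) - Z)
    rw [map_sub, Divisor.degree_single, hdeg, hdegZ]
    have : ((b2 : ℕ) : ℤ) = 2 * g * m + 2 * g := by simp [b2]
    rw [this]
    push_cast at hUP0 ⊢
    nlinarith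
  obtain ⟨s, hs0, hsL, hsord⟩ := v27dc_exists_avoid R Ds (insert P0 (Finset.univ.image T))
    ⟨P0, Finset.mem_insert_self _ _⟩ (fun P _ => by rw [hdeg]; push_cast; omega)
  have hsT : ∀ j, (T j).ord s = 0 := fun j => by
    rw [hsord (T j) (Finset.mem_insert_of_mem (Finset.mem_image_of_mem T (Finset.mem_univ j)))]
    show -((Finsupp.single P0 (b2 : ℤ) - Z) (T j)) = 0
    rw [Finsupp.sub_apply, Finsupp.single_eq_of_ne (hT j), hZT j]; ring
  have hsv : ∀ v : Place K F, v ≠ P0 → Z v ≤ v.ord s := fun v hv => by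
    have := ((mem_riemannRochSpace_iff.mp hsL) v).resolve_left hs0
    have h2 : Ds v = -Z v := by
      show (Finsupp.single P0 (b2 : ℤ) - Z) v = _
      rw [Finsupp.sub_apply, Finsupp.single_eq_of_ne hv]; ring
    rw [h2] at this; omega
  have hsP0 : -(b2 : ℤ) ≤ P0.ord s := by
    have := ((mem_riemannRochSpace_iff.mp hsL) P0).resolve_left hs0
    have h2 : Ds P0 = b2 := by
      show (Finsupp.single P0 (b2 : ℤ) - Z) P0 = _
      rw [Finsupp.sub_apply, Finsupp.single_eq_same, hZP0]; ring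
    rwa [h2] at this
  have hsLb : s ∈ v27dcL P0 b2 :=
    v27dc_mem_L_iff.mpr (Or.inr ⟨hsP0, fun v hv => (hZnn v).trans (hsv v hv)⟩)
  -- the function `h`
  have hh0 : s * f / U ≠ 0 := div_ne_zero (mul_ne_zero hs0 hf0) hU0
  have hhord : ∀ v : Place K F, v.ord (s * f / U) = v.ord s + v.ord f - v.ord U := fun v => by
    rw [div_eq_mul_inv, v.ord_mul (mul_ne_zero hs0 hf0) (inv_ne_zero hU0), v.ord_mul hs0 hf0,
      v.ord_inv]
    ring
  have hhL : s * f / U ∈ v27dcL P0 b2 := by
    refine v27dc_mem_L_iff.mpr (Or.inr ⟨?_, fun v hv => ?_⟩)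
    · rw [hhord, hord]
      rw [hdegZ] at hdegZnn
      omega
    · rw [hhord, hfv v hv]
      have := hsv v hv
      rw [hZv v hv] at this
      omega
  refine ⟨u, s, s * f / U, huL, hsLb, hhL, fun i => Or.inr ?_, fun i => ⟨hs0, hsT i⟩, ?_⟩
  · have := huord i i
    rw [if_pos rfl] at this
    omega
  · rw [← hU, div_mul_cancel₀ _ hU0]

end Fermat.Agent.V.Dict
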