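/-
Program V (S27), Lefschetz route, leaf (DICT), abstract half (helper6): (D2), (D4) and the
torsion criterion, on Prelude places.

* `v27dc_exists_tuple`: an effective divisor of degree `e` is `Σ E` for a tuple `E : Fin e → Place`;
* `v27dcCls P0 E hE`: the class `[Σ E - e P0] ∈ Pic0`;
* (D4) `v27dc_exists_repr`: every class of `Pic0` is `v27dcCls P0 E` (`e ≥ 2g`), `E i ≠ P0`;
* `v27dcCls_eq_iff`: equality of such classes is linear equivalence of `Σ E`, `Σ E'`;
* (D2) `v27dc_equiv_iff`: linear equivalence `⟺ ∃ G b1 b2, div b1 = ΣE + ΣG - .., div b2 = ΣE' + ΣG - ..`;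
* `v27dc_torsion_iff`: `n • [ΣE - eP0] = 0 ⟺ ∃ f, div f = Σ (n·E) - n e P0`.
-/
import Fermat.Agent.V.Dict.DivAff

set_option autoImplicit false

noncomputable section

namespace Fermat.Agent.V.Dict

open AlgebraicCurve Module Fermat.Agent.V.Dual Fermat.Agent.V.RR

variable {K F : Type*} [Field K] [Field F] [Algebra K F]

/-! ### tuples -/

theorem v27dcSum_cons {e : ℕ} (v : Place K F) (E : Fin e → Place K F) :
    v27dcSum (Fin.cons v E : Fin (e + 1) → Place K F) = Finsupp.single v 1 + v27dcSum E := by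
  rw [v27dcSum, Fin.sum_univ_succ]
  simp [v27dcSum]

theorem v27dcSum_append {e r : ℕ} (E : Fin e → Place K F) (G : Fin r → Place K F) :
    v27dcSum (Fin.append E G) = v27dcSum E + v27dcSum G := by
  rw [v27dcSum, Fin.sum_univ_add]
  simp [v27dcSum]

/-- an effective divisor of degree `e` is the sum of a tuple of `e` places. -/
theorem v27dc_exists_tuple (hdeg : ∀ v : Place K F, v.deg = 1) :
    ∀ (e : ℕ) (D : Divisor K F), (∀ v, 0 ≤ D v) → Divisor.degree D = e →
      ∃ E : Fin e → Place K F, v27dcSum E = D := by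
  classical
  intro e
  induction e with
  | zero =>
    intro D hD hdegD
    refine ⟨Fin.elim0, ?_⟩
    have h0 : (0 : Divisor K F) = D := by
      refine v27dc_eq_of_le_of_degree_eq (fun v => by rw [hdeg v]; exact one_pos) ?_ ?_
      · rw [Finsupp.le_def]; intro v; simpa using hD v
      · rw [map_zero, hdegD]; simp
    rw [← h0]
    simp [v27dcSum]
  | succ e ih =>
    intro D hD hdegD
    have hne : D ≠ 0 := by
      rintro rfl
      rw [map_zero] at hdegD
      have : ((e + 1 : ℕ) : ℤ) ≠ 0 := by positivity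
      exact this hdegD.symm
    obtain ⟨v, hv⟩ : ∃ v, D v ≠ 0 := by
      by_contra hcon
      exact hne (Finsupp.ext fun v => by
        by_contra hv; exact hcon ⟨v, hv⟩)
    have hvpos : 0 < D v := lt_of_le_of_ne (hD v) (Ne.symm hv)
    obtain ⟨E', hE'⟩ := ih (D - Finsupp.single v 1) (fun w => by
      rw [Finsupp.sub_apply, Finsupp.single_apply]
      split_ifs with hw
      · subst hw; omega
      · have := hD w; omega) (by
      rw [map_sub, hdegD, Divisor.degree_single, hdeg]; push_cast; ring)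
    refine ⟨Fin.cons v E', ?_⟩
    rw [v27dcSum_cons, hE']
    abel

/-! ### classes -/

theorem v27dc_tuple_degree (hdeg : ∀ v : Place K F, v.deg = 1) (P0 : Place K F) {e : ℕ}
    (E : Fin e → Place K F) :
    v27dcSum E - Finsupp.single P0 (e : ℤ) ∈ Divisor.degZero (K := K) (F := F) := by
  rw [Divisor.mem_degZero, map_sub, v27dc_degree_sum hdeg, Divisor.degree_single, hdeg]
  simp

/-- the class `[Σ E - e P0]`. -/
def v27dcCls (hdeg : ∀ v : Place K F, v.deg = 1) (P0 : Place K F) {e : ℕ}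
    (E : Fin e → Place K F) : Pic0 K F :=
  Pic0.mk ⟨v27dcSum E - Finsupp.single P0 (e : ℤ), v27dc_tuple_degree hdeg P0 E⟩

theorem v27dc_mk_eq_mk_iff (D D' : Divisor.degZero (K := K) (F := F)) :
    Pic0.mk D = Pic0.mk D' ↔
      (D' : Divisor K F) - (D : Divisor K F) ∈ Divisor.principal (K := K) (F := F) := by
  unfold Pic0.mk
  rw [QuotientAddGroup.eq, AddSubgroup.mem_addSubgroupOf]
  have : ((-D + D' : Divisor.degZero (K := K) (F := F)) : Divisor K F)
      = (D' : Divisor K F) - (D : Divisor K F) := by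
    push_cast; abel
  rw [this]

theorem v27dc_mk_eq_zero_iff (D : Divisor.degZero (K := K) (F := F)) :
    Pic0.mk D = 0 ↔ (D : Divisor K F) ∈ Divisor.principal (K := K) (F := F) := by
  rw [← Pic0.mk_zero, v27dc_mk_eq_mk_iff]
  constructor
  · intro h
    have := (Divisor.principal (K := K) (F := F)).neg_mem h
    simpa using this
  · intro h
    have := (Divisor.principal (K := K) (F := F)).neg_mem h
    simpa using this

/-- equality of classes of tuples = linear equivalence. -/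
theorem v27dcCls_eq_iff (hdeg : ∀ v : Place K F, v.deg = 1) (P0 : Place K F) {e : ℕ}
    (E E' : Fin e → Place K F) :
    v27dcCls hdeg P0 E = v27dcCls hdeg P0 E' ↔
      v27dcSum E - v27dcSum E' ∈ Divisor.principal (K := K) (F := F) := by
  rw [v27dcCls, v27dcCls, v27dc_mk_eq_mk_iff]
  have : (v27dcSum E' - Finsupp.single P0 (e : ℤ)) - (v27dcSum E - Finsupp.single P0 (e : ℤ))
      = -(v27dcSum E - v27dcSum E') := by abel
  show (v27dcSum E' - Finsupp.single P0 (e : ℤ)) - (v27dcSum E - Finsupp.single P0 (e : ℤ)) ∈ _ ↔ _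
  rw [this, AddSubgroup.neg_mem_iff]

/-- (D4): every class of `Pic0` is `[Σ E - e P0]` with all `E i ≠ P0`, for any `e ≥ 2g`. -/
theorem v27dc_exists_repr [Infinite K] {g : ℕ} (R : V27RR K F g)
    (hdeg : ∀ v : Place K F, v.deg = 1) (P0 : Place K F) {e : ℕ} (he : 2 * g ≤ e)
    (x : Pic0 K F) :
    ∃ E : Fin e → Place K F, (∀ i, E i ≠ P0) ∧ x = v27dcCls hdeg P0 E := by
  classical
  have := R.hasDiv
  obtain ⟨⟨X, hX⟩, rfl⟩ := Pic0.mk_surjective x
  rw [Divisor.mem_degZero] at hX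
  let D : Divisor K F := X + Finsupp.single P0 (e : ℤ)
  have hdegD : Divisor.degree D = e := by
    show Divisor.degree (X + Finsupp.single P0 (e : ℤ)) = e
    rw [map_add, hX, Divisor.degree_single, hdeg]; simp
  obtain ⟨f, hf0, hfL, hford⟩ := v27dc_exists_avoid R D {P0} ⟨P0, Finset.mem_singleton_self _⟩
    (fun P _ => by rw [hdegD, hdeg]; push_cast; omega)
  have hfP0 := hford P0 (Finset.mem_singleton_self _)
  let Eff : Divisor K F := D + v27d_div K f
  have hEffnn : ∀ v, 0 ≤ Eff v := fun v => by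
    show 0 ≤ (D + v27d_div K f) v
    rw [Finsupp.add_apply, v27d_div_apply' f v]
    have := ((mem_riemannRochSpace_iff.mp hfL) v).resolve_left hf0
    omega
  have hEffP0 : Eff P0 = 0 := by
    show (D + v27d_div K f) P0 = 0
    rw [Finsupp.add_apply, v27d_div_apply' f P0, hfP0]; ring
  have hdegEff : Divisor.degree Eff = e := by
    show Divisor.degree (D + v27d_div K f) = e
    rw [map_add, hdegD, v27d_degree_div]; simp
  obtain ⟨E, hE⟩ := v27dc_exists_tuple hdeg e Eff hEffnn hdegEff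
  have hEP0 : ∀ i, E i ≠ P0 := by
    intro i hi
    have : 0 < v27dcSum E P0 := (v27dcSum_pos_iff E P0).mpr ⟨i, hi⟩
    rw [hE, hEffP0] at this
    exact lt_irrefl _ this
  refine ⟨E, hEP0, ?_⟩
  rw [v27dcCls, v27dc_mk_eq_mk_iff]
  show v27dcSum E - Finsupp.single P0 (e : ℤ) - X ∈ _
  refine ⟨f, hf0, fun v => ?_⟩
  rw [hE]
  show (D + v27d_div K f - Finsupp.single P0 (e : ℤ) - X) v = _
  rw [Finsupp.sub_apply, Finsupp.sub_apply, Finsupp.add_apply, v27d_div_apply' f v]
  show (X + Finsupp.single P0 (e : ℤ)) v + v.ord f - _ - _ = _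
  rw [Finsupp.add_apply]
  ring

/-! ### (D2): linear equivalence -/

/-- (D2): `Σ E ~ Σ E'` iff both become principal (of the shape `div b = ΣE + ΣG - (e+r) P0`) after
adding a common tuple `G` of `r ≥ 2g` places `≠ P0`. -/
theorem v27dc_equiv_iff [Infinite K] {g : ℕ} (R : V27RR K F g)
    (hdeg : ∀ v : Place K F, v.deg = 1) (P0 : Place K F) {e r : ℕ} (hr : 2 * g ≤ r)
    (E E' : Fin e → Place K F) (hE : ∀ i, E i ≠ P0) (hE' : ∀ i, E' i ≠ P0) :
    v27dcSum E - v27dcSum E' ∈ Divisor.principal (K := K) (F := F) ↔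
      ∃ (G : Fin r → Place K F) (b1 b2 : F), (∀ i, G i ≠ P0) ∧
        v27dcIsDiv P0 (Fin.append E G) b1 ∧ v27dcIsDiv P0 (Fin.append E' G) b2 := by
  classical
  have := R.hasDiv
  constructor
  · rintro ⟨φ, hφ0, hφ⟩
    -- `div φ = ΣE - ΣE'`
    let D : Divisor K F := Finsupp.single P0 ((e + r : ℕ) : ℤ) - v27dcSum E
    have hdegD : Divisor.degree D = r := by
      show Divisor.degree (Finsupp.single P0 ((e + r : ℕ) : ℤ) - v27dcSum E) = r
      rw [map_sub, Divisor.degree_single, hdeg, v27dc_degree_sum hdeg]; push_cast; ring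
    obtain ⟨b1, hb0, hbL, hbord⟩ := v27dc_exists_avoid R D {P0} ⟨P0, Finset.mem_singleton_self _⟩
      (fun P _ => by rw [hdegD, hdeg]; push_cast; omega)
    have hbP0 := hbord P0 (Finset.mem_singleton_self _)
    have hDP0 : D P0 = ((e + r : ℕ) : ℤ) := by
      show (Finsupp.single P0 ((e + r : ℕ) : ℤ) - v27dcSum E) P0 = _
      rw [Finsupp.sub_apply, Finsupp.single_eq_same, v27dcSum_eq_zero_of_forall_ne E P0 hE]; ring
    have hDv : ∀ v, v ≠ P0 → D v = -v27dcSum E v := fun v hv => by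
      show (Finsupp.single P0 ((e + r : ℕ) : ℤ) - v27dcSum E) v = _
      rw [Finsupp.sub_apply, Finsupp.single_eq_of_ne hv]; ring
    let Eff : Divisor K F := D + v27d_div K b1
    have hEffnn : ∀ v, 0 ≤ Eff v := fun v => by
      show 0 ≤ (D + v27d_div K b1) v
      rw [Finsupp.add_apply, v27d_div_apply' b1 v]
      have := ((mem_riemannRochSpace_iff.mp hbL) v).resolve_left hb0
      omega
    have hEffP0 : Eff P0 = 0 := by
      show (D + v27d_div K b1) P0 = 0
      rw [Finsupp.add_apply, v27d_div_apply' b1 P0, hbP0]; ring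
    have hdegEff : Divisor.degree Eff = r := by
      show Divisor.degree (D + v27d_div K b1) = r
      rw [map_add, hdegD, v27d_degree_div]; simp
    obtain ⟨G, hG⟩ := v27dc_exists_tuple hdeg r Eff hEffnn hdegEff
    have hGP0 : ∀ i, G i ≠ P0 := by
      intro i hi
      have : 0 < v27dcSum G P0 := (v27dcSum_pos_iff G P0).mpr ⟨i, hi⟩
      rw [hG, hEffP0] at this
      exact lt_irrefl _ this
    have hGv : ∀ v, v ≠ P0 → v.ord b1 = v27dcSum E v + v27dcSum G v := fun v hv => by
      have : v27dcSum G v = D v + v.ord b1 := by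
        rw [hG]
        show (D + v27d_div K b1) v = _
        rw [Finsupp.add_apply, v27d_div_apply' b1 v]
      rw [this, hDv v hv]; ring
    have hb2 : b1 * φ⁻¹ ≠ 0 := mul_ne_zero hb0 (inv_ne_zero hφ0)
    refine ⟨G, b1, b1 * φ⁻¹, hGP0, ⟨hb0, ?_, fun v hv => ?_⟩, ⟨hb2, ?_, fun v hv => ?_⟩⟩
    · rw [hbP0, hDP0]
    · rw [v27dcSum_append, Finsupp.add_apply, hGv v hv]
    · rw [P0.ord_mul hb0 (inv_ne_zero hφ0), P0.ord_inv, ← hφ P0, hbP0, hDP0, Finsupp.sub_apply,
        v27dcSum_eq_zero_of_forall_ne E P0 hE, v27dcSum_eq_zero_of_forall_ne E' P0 hE']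
      ring
    · rw [v.ord_mul hb0 (inv_ne_zero hφ0), v.ord_inv, ← hφ v, hGv v hv, v27dcSum_append,
        Finsupp.add_apply, Finsupp.sub_apply]
      ring
  · rintro ⟨G, b1, b2, -, ⟨hb1, hb1P0, hb1v⟩, ⟨hb2, hb2P0, hb2v⟩⟩
    refine ⟨b1 * b2⁻¹, mul_ne_zero hb1 (inv_ne_zero hb2), fun v => ?_⟩
    rw [v.ord_mul hb1 (inv_ne_zero hb2), v.ord_inv, Finsupp.sub_apply]
    by_cases hv : v = P0
    · subst hv
      rw [hb1P0, hb2P0, v27dcSum_eq_zero_of_forall_ne E v hE,
        v27dcSum_eq_zero_of_forall_ne E' v hE']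
      ring
    · rw [hb1v v hv, hb2v v hv, v27dcSum_append, v27dcSum_append, Finsupp.add_apply,
        Finsupp.add_apply]
      ring

/-! ### torsion -/

/-- the tuple `E` repeated `n` times. -/
def v27dcRep (n : ℕ) {e : ℕ} (E : Fin e → Place K F) : Fin (n * e) → Place K F :=
  fun i => E (finProdFinEquiv.symm i).2

theorem v27dcRep_ne (n : ℕ) {e : ℕ} (E : Fin e → Place K F) (P0 : Place K F)
    (hE : ∀ i, E i ≠ P0) (i : Fin (n * e)) : v27dcRep n E i ≠ P0 := hE _

theorem v27dcSum_rep (n : ℕ) {e : ℕ} (E : Fin e → Place K F) :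
    v27dcSum (v27dcRep n E) = n • v27dcSum E := by
  unfold v27dcSum v27dcRep
  rw [← Equiv.sum_comp finProdFinEquiv]
  simp only [Equiv.symm_apply_apply]
  rw [Fintype.sum_prod_type]
  simp

/-- `n • [ΣE - e P0] = 0` iff `Σ (n·E) - n e P0` is the divisor of a function. -/
theorem v27dc_torsion_iff (hdeg : ∀ v : Place K F, v.deg = 1) (P0 : Place K F) (n : ℕ) {e : ℕ}
    (E : Fin e → Place K F) (hE : ∀ i, E i ≠ P0) :
    v27dcCls hdeg P0 E ∈ Pic0.torsion K F n ↔ ∃ f : F, v27dcIsDiv P0 (v27dcRep n E) f := by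
  rw [Pic0.mem_torsion]
  have hsmul : (n : ℤ) • v27dcCls hdeg P0 E
      = Pic0.mk ((n : ℤ) • ⟨v27dcSum E - Finsupp.single P0 (e : ℤ),
          v27dc_tuple_degree hdeg P0 E⟩) := rfl
  rw [hsmul, v27dc_mk_eq_zero_iff]
  have hcoe : (((n : ℤ) • (⟨v27dcSum E - Finsupp.single P0 (e : ℤ),
      v27dc_tuple_degree hdeg P0 E⟩ : Divisor.degZero (K := K) (F := F)) :
        Divisor.degZero (K := K) (F := F)) : Divisor K F)
      = (n : ℤ) • (v27dcSum E - Finsupp.single P0 (e : ℤ)) := rfl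
  rw [hcoe]
  constructor
  · rintro ⟨f, hf0, hf⟩
    refine ⟨f, hf0, ?_, fun v hv => ?_⟩
    · rw [← hf P0, Finsupp.smul_apply, Finsupp.sub_apply, Finsupp.single_eq_same,
        v27dcSum_eq_zero_of_forall_ne E P0 hE]
      push_cast; simp
    · rw [← hf v, Finsupp.smul_apply, Finsupp.sub_apply, Finsupp.single_eq_of_ne hv,
        v27dcSum_rep, Finsupp.smul_apply]
      simp
  · rintro ⟨f, hf0, hfP0, hfv⟩
    refine ⟨f, hf0, fun v => ?_⟩
    by_cases hv : v = P0
    · subst hv
      rw [hfP0, Finsupp.smul_apply, Finsupp.sub_apply, Finsupp.single_eq_same,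
        v27dcSum_eq_zero_of_forall_ne E v hE]
      push_cast; simp
    · rw [hfv v hv, Finsupp.smul_apply, Finsupp.sub_apply, Finsupp.single_eq_of_ne hv,
        v27dcSum_rep, Finsupp.smul_apply]
      simp

end Fermat.Agent.V.Dict
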