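/-
Program V (S27), Lefschetz route, leaf (DICT), abstract half (helper6): (P3) on Prelude places.

For every place `Q ≠ P0` there are `u ∈ L((2g+1) P0)` with a simple zero at `Q` and
`s ∈ L(4g P0)` with `s(Q) ≠ 0` such that `s · y ∈ u · L((4g + m) P0)` for every `y ∈ L(m P0)`
vanishing at `Q`: the maximal ideal of `Q` in the ring of functions regular off `P0` is locally
principal, with explicit pole-order bounds.
-/
import Fermat.Agent.V.Dict.DivAff

set_option autoImplicit false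

noncomputable section

namespace Fermat.Agent.V.Dict

open AlgebraicCurve Module Fermat.Agent.V.Dual Fermat.Agent.V.RR

variable {K F : Type*} [Field K] [Field F] [Algebra K F]

/-- (P3) with explicit bounds. -/
theorem v27dc_P3 [Infinite K] {g : ℕ} (R : V27RR K F g) (hdeg : ∀ v : Place K F, v.deg = 1)
    {P0 Q : Place K F} (hQ : Q ≠ P0) :
    ∃ u s : F, u ∈ v27dcL P0 (2 * g + 1) ∧ s ∈ v27dcL P0 (4 * g) ∧ u ≠ 0 ∧ Q.ord u = 1 ∧
      v27dcNonvan Q s ∧
      ∀ (m : ℕ) (y : F), y ∈ v27dcL P0 m → v27dcVan Q y →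
        ∃ h : F, h ∈ v27dcL P0 (4 * g + m) ∧ s * y = u * h := by
  classical
  have := R.hasDiv
  -- the function `u`
  let D : Divisor K F := Finsupp.single P0 ((2 * g + 1 : ℕ) : ℤ) - Finsupp.single Q 1
  have hdegD : Divisor.degree D = 2 * g := by
    show Divisor.degree (Finsupp.single P0 ((2 * g + 1 : ℕ) : ℤ) - Finsupp.single Q 1) = _
    rw [map_sub, Divisor.degree_single, Divisor.degree_single, hdeg, hdeg]
    push_cast; ring
  obtain ⟨u, hu0, huL, huord⟩ := v27dc_exists_avoid R D {Q} ⟨Q, Finset.mem_singleton_self _⟩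
    (fun P _ => by rw [hdegD, hdeg]; push_cast; omega)
  have huQ : Q.ord u = 1 := by
    rw [huord Q (Finset.mem_singleton_self _)]
    show -((Finsupp.single P0 ((2 * g + 1 : ℕ) : ℤ) - Finsupp.single Q 1 : Divisor K F) Q) = 1
    rw [Finsupp.sub_apply, Finsupp.single_eq_of_ne hQ, Finsupp.single_eq_same]; ring
  have huLb : u ∈ v27dcL P0 (2 * g + 1) := by
    refine v27rr_rrSpace_mono ?_ huL
    show Finsupp.single P0 ((2 * g + 1 : ℕ) : ℤ) - Finsupp.single Q 1 ≤ _
    rw [sub_le_self_iff]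
    exact Finsupp.single_nonneg.mpr zero_le_one
  have hureg : ∀ v : Place K F, v ≠ P0 → 0 ≤ v.ord u := fun v hv =>
    ((v27dc_mem_L_iff.mp huLb).resolve_left hu0).2 v hv
  have huP0 : -((2 * g + 1 : ℕ) : ℤ) ≤ P0.ord u :=
    ((v27dc_mem_L_iff.mp huLb).resolve_left hu0).1
  -- the divisor `Z` of the other zeros of `u`
  let Z : Divisor K F := v27d_div K u - Finsupp.single P0 (P0.ord u) - Finsupp.single Q 1
  have hZP0 : Z P0 = 0 := by
    show (v27d_div K u - Finsupp.single P0 (P0.ord u) - Finsupp.single Q 1 : Divisor K F) P0 = 0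
    rw [Finsupp.sub_apply, Finsupp.sub_apply, Finsupp.single_eq_same, v27d_div_apply' u P0,
      Finsupp.single_eq_of_ne hQ.symm]
    ring
  have hZQ : Z Q = 0 := by
    show (v27d_div K u - Finsupp.single P0 (P0.ord u) - Finsupp.single Q 1 : Divisor K F) Q = 0
    rw [Finsupp.sub_apply, Finsupp.sub_apply, Finsupp.single_eq_same, v27d_div_apply' u Q,
      Finsupp.single_eq_of_ne hQ, huQ]
    ring
  have hZv : ∀ v : Place K F, v ≠ P0 → v ≠ Q → Z v = v.ord u := fun v hv hvQ => by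
    show (v27d_div K u - Finsupp.single P0 (P0.ord u) - Finsupp.single Q 1 : Divisor K F) v = _
    rw [Finsupp.sub_apply, Finsupp.sub_apply, Finsupp.single_eq_of_ne hv,
      Finsupp.single_eq_of_ne hvQ, v27d_div_apply' u v]
    ring
  have hZnn : ∀ v, 0 ≤ Z v := fun v => by
    by_cases hv : v = P0
    · subst hv; rw [hZP0]
    · by_cases hvQ : v = Q
      · subst hvQ; rw [hZQ]
      · rw [hZv v hv hvQ]; exact hureg v hv
  have hdegZ : Divisor.degree Z = -P0.ord u - 1 := by
    show Divisor.degree (v27d_div K u - Finsupp.single P0 (P0.ord u) - Finsupp.single Q 1) = _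
    rw [map_sub, map_sub, v27d_degree_div, Divisor.degree_single, Divisor.degree_single, hdeg,
      hdeg]
    push_cast; ring
  have hdegZnn : 0 ≤ Divisor.degree Z := v27dc_degree_nonneg hZnn
  -- the function `s`
  let Ds : Divisor K F := Finsupp.single P0 ((4 * g : ℕ) : ℤ) - Z
  have hdegDs : (2 * g : ℤ) ≤ Divisor.degree Ds := by
    show (2 * g : ℤ) ≤ Divisor.degree (Finsupp.single P0 ((4 * g : ℕ) : ℤ) - Z)
    rw [map_sub, Divisor.degree_single, hdeg, hdegZ]
    push_cast at huP0 ⊢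
    omega
  obtain ⟨s, hs0, hsL, hsord⟩ := v27dc_exists_avoid R Ds {Q} ⟨Q, Finset.mem_singleton_self _⟩
    (fun P _ => by rw [hdeg]; push_cast; omega)
  have hsQ : Q.ord s = 0 := by
    rw [hsord Q (Finset.mem_singleton_self _)]
    show -((Finsupp.single P0 ((4 * g : ℕ) : ℤ) - Z) Q) = 0
    rw [Finsupp.sub_apply, Finsupp.single_eq_of_ne hQ, hZQ]; ring
  have hsv : ∀ v : Place K F, v ≠ P0 → Z v ≤ v.ord s := fun v hv => by
    have := ((mem_riemannRochSpace_iff.mp hsL) v).resolve_left hs0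
    have h2 : Ds v = -Z v := by
      show (Finsupp.single P0 ((4 * g : ℕ) : ℤ) - Z) v = _
      rw [Finsupp.sub_apply, Finsupp.single_eq_of_ne hv]; ring
    rw [h2] at this; omega
  have hsP0 : -((4 * g : ℕ) : ℤ) ≤ P0.ord s := by
    have := ((mem_riemannRochSpace_iff.mp hsL) P0).resolve_left hs0
    have h2 : Ds P0 = ((4 * g : ℕ) : ℤ) := by
      show (Finsupp.single P0 ((4 * g : ℕ) : ℤ) - Z) P0 = _
      rw [Finsupp.sub_apply, Finsupp.single_eq_same, hZP0]; ring
    rwa [h2] at this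
  have hsLb : s ∈ v27dcL P0 (4 * g) :=
    v27dc_mem_L_iff.mpr (Or.inr ⟨hsP0, fun v hv => (hZnn v).trans (hsv v hv)⟩)
  refine ⟨u, s, huLb, hsLb, hu0, huQ, ⟨hs0, hsQ⟩, fun m y hyL hyQ => ?_⟩
  by_cases hy0 : y = 0
  · exact ⟨0, Submodule.zero_mem _, by rw [hy0]; ring⟩
  have hyQ' : 0 < Q.ord y := hyQ.resolve_left hy0
  have hyreg := (v27dc_mem_L_iff.mp hyL).resolve_left hy0
  have hh0 : s * y / u ≠ 0 := div_ne_zero (mul_ne_zero hs0 hy0) hu0
  have hhord : ∀ v : Place K F, v.ord (s * y / u) = v.ord s + v.ord y - v.ord u := fun v => by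
    rw [div_eq_mul_inv, v.ord_mul (mul_ne_zero hs0 hy0) (inv_ne_zero hu0), v.ord_mul hs0 hy0,
      v.ord_inv]
    ring
  refine ⟨s * y / u, v27dc_mem_L_iff.mpr (Or.inr ⟨?_, fun v hv => ?_⟩), ?_⟩
  · rw [hhord]
    have := hyreg.1
    rw [hdegZ] at hdegZnn
    push_cast
    push_cast at hsP0
    omega
  · rw [hhord]
    by_cases hvQ : v = Q
    · subst hvQ
      rw [hsQ, huQ]; omega
    · have h1 := hsv v hv
      rw [hZv v hv hvQ] at h1
      have h2 := hyreg.2 v hv
      omega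
  · field_simp

end Fermat.Agent.V.Dict
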