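/-
Program V (S27), Lefschetz route, leaf (DICT), abstract half (helper6): the statements consumed by
the coordinate/semantic layer, with the first-order certificates `v27dcDivAff` plugged in.

* `v27dc_isDiv_iff_divAff`      : (D1) in `iff` form, for `f` of exact pole order `m`;
* `v27dc_torsion_iff_divAff`    : `[ΣE - eP0] ∈ Pic0[n] ⟺ ∃ f` exact of pole order `n e` with
                                  `DivAff (n·E) f`;
* `v27dc_cls_eq_iff_divAff`     : `[ΣE - eP0] = [ΣE' - eP0] ⟺ ∃ G b1 b2` exact of pole order `e + r`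
                                  with `DivAff (E ++ G) b1 ∧ DivAff (E' ++ G) b2`;
* (D4) `v27dc_exists_repr` (in `Classes.lean`), (P3) `v27dc_P3` (in `P3.lean`).
-/
import Fermat.Agent.V.Dict.Classes
import Fermat.Agent.V.Dict.P3

set_option autoImplicit false

noncomputable section

namespace Fermat.Agent.V.Dict

open AlgebraicCurve Module Fermat.Agent.V.Dual Fermat.Agent.V.RR

variable {K F : Type*} [Field K] [Field F] [Algebra K F]

/-- `f ∈ L(m P0)` has exact pole order `m` at `P0`. -/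
def v27dcExact (P0 : Place K F) (m : ℕ) (f : F) : Prop :=
  f ≠ 0 ∧ f ∈ v27dcL P0 m ∧ P0.ord f = -(m : ℤ)

theorem v27dcExact_of_isDiv {P0 : Place K F} {m : ℕ} {T : Fin m → Place K F} {f : F}
    (h : v27dcIsDiv P0 T f) : v27dcExact P0 m f := by
  obtain ⟨hf0, hord, hv⟩ := h
  refine ⟨hf0, v27dc_mem_L_iff.mpr (Or.inr ⟨by rw [hord], fun v hv' => ?_⟩), hord⟩
  rw [hv v hv']; exact v27dcSum_nonneg T v

/-- (D1), `iff` form. -/
theorem v27dc_isDiv_iff_divAff [Infinite K] {g : ℕ} (R : V27RR K F g)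
    (hdeg : ∀ v : Place K F, v.deg = 1) {P0 : Place K F} {m : ℕ} {T : Fin m → Place K F}
    (hT : ∀ i, T i ≠ P0) {f : F} (hf : v27dcExact P0 m f) :
    v27dcIsDiv P0 T f ↔
      v27dcDivAff P0 (2 * g + 1) (2 * g * m + 2 * g) (2 * g * m + 2 * g) T f :=
  ⟨fun h => v27dc_divAff_of_isDiv R hdeg hT h,
    fun h => v27dc_isDiv_of_divAff R hdeg hT hf.1 hf.2.1 hf.2.2 h⟩

/-- TORSION, first-order form. -/
theorem v27dc_torsion_iff_divAff [Infinite K] {g : ℕ} (R : V27RR K F g)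
    (hdeg : ∀ v : Place K F, v.deg = 1) (P0 : Place K F) (n : ℕ) {e : ℕ}
    (E : Fin e → Place K F) (hE : ∀ i, E i ≠ P0) :
    v27dcCls hdeg P0 E ∈ Pic0.torsion K F n ↔
      ∃ f : F, v27dcExact P0 (n * e) f ∧
        v27dcDivAff P0 (2 * g + 1) (2 * g * (n * e) + 2 * g) (2 * g * (n * e) + 2 * g)
          (v27dcRep n E) f := by
  rw [v27dc_torsion_iff hdeg P0 n E hE]
  constructor
  · rintro ⟨f, hf⟩
    exact ⟨f, v27dcExact_of_isDiv hf,
      (v27dc_isDiv_iff_divAff R hdeg (v27dcRep_ne n E P0 hE) (v27dcExact_of_isDiv hf)).mp hf⟩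
  · rintro ⟨f, hfe, hf⟩
    exact ⟨f, (v27dc_isDiv_iff_divAff R hdeg (v27dcRep_ne n E P0 hE) hfe).mpr hf⟩

theorem v27dc_append_ne {e r : ℕ} {E : Fin e → Place K F} {G : Fin r → Place K F}
    {P0 : Place K F} (hE : ∀ i, E i ≠ P0) (hG : ∀ i, G i ≠ P0) (i : Fin (e + r)) :
    Fin.append E G i ≠ P0 := by
  refine Fin.addCases (fun j => ?_) (fun j => ?_) i
  · rw [Fin.append_left]; exact hE j
  · rw [Fin.append_right]; exact hG j

/-- EQUALITY OF CLASSES, first-order form (`r ≥ 2g` auxiliary points). -/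
theorem v27dc_cls_eq_iff_divAff [Infinite K] {g : ℕ} (R : V27RR K F g)
    (hdeg : ∀ v : Place K F, v.deg = 1) (P0 : Place K F) {e r : ℕ} (hr : 2 * g ≤ r)
    (E E' : Fin e → Place K F) (hE : ∀ i, E i ≠ P0) (hE' : ∀ i, E' i ≠ P0) :
    v27dcCls hdeg P0 E = v27dcCls hdeg P0 E' ↔
      ∃ (G : Fin r → Place K F) (b1 b2 : F), (∀ i, G i ≠ P0) ∧
        v27dcExact P0 (e + r) b1 ∧ v27dcExact P0 (e + r) b2 ∧
        v27dcDivAff P0 (2 * g + 1) (2 * g * (e + r) + 2 * g) (2 * g * (e + r) + 2 * g)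
          (Fin.append E G) b1 ∧
        v27dcDivAff P0 (2 * g + 1) (2 * g * (e + r) + 2 * g) (2 * g * (e + r) + 2 * g)
          (Fin.append E' G) b2 := by
  rw [v27dcCls_eq_iff, v27dc_equiv_iff R hdeg P0 hr E E' hE hE']
  constructor
  · rintro ⟨G, b1, b2, hG, h1, h2⟩
    exact ⟨G, b1, b2, hG, v27dcExact_of_isDiv h1, v27dcExact_of_isDiv h2,
      (v27dc_isDiv_iff_divAff R hdeg (v27dc_append_ne hE hG) (v27dcExact_of_isDiv h1)).mp h1,
      (v27dc_isDiv_iff_divAff R hdeg (v27dc_append_ne hE' hG) (v27dcExact_of_isDiv h2)).mp h2⟩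
  · rintro ⟨G, b1, b2, hG, he1, he2, h1, h2⟩
    exact ⟨G, b1, b2, hG,
      (v27dc_isDiv_iff_divAff R hdeg (v27dc_append_ne hE hG) he1).mpr h1,
      (v27dc_isDiv_iff_divAff R hdeg (v27dc_append_ne hE' hG) he2).mpr h2⟩

end Fermat.Agent.V.Dict
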